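import Fermat.Agent.Cheb.Frobenius
import Fermat.Agent.Places.Existence

set_option autoImplicit false
set_option linter.unusedSectionVars false
set_option linter.style.haveILetI false

/-!
# The Frobenius density theorem for places of `ℚ̄`
-/

namespace Fermat.Agent.Cheb

open NumberField Fermat.Agent.Places

section finite

variable (K : Type*) [Field K] [CharZero K] [inst : Algebra ℚ K] [FiniteDimensional ℚ K]
  [IsGalois ℚ K]

/-- Frobenius density theorem, elementary formulation. -/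
theorem exists_frobenius_finite (S : Set ℕ) (hS : S.Finite) (g : K ≃ₐ[ℚ] K) :
    ∃ p : ℕ, p.Prime ∧ p ∉ S ∧ ∃ P : Ideal (𝓞 K), P.IsPrime ∧ (p : 𝓞 K) ∈ P ∧
      ∃ σ : K ≃ₐ[ℚ] K, (∀ x : 𝓞 K, σ • x - x ^ p ∈ P) ∧
        (∀ τ : K ≃ₐ[ℚ] K, (∀ x : 𝓞 K, τ • x - x ^ p ∈ P) → τ = σ) ∧
        Subgroup.zpowers σ = Subgroup.zpowers g := by
  obtain rfl : inst = DivisionRing.toRatAlgebra := Subsingleton.elim _ _
  haveI : NumberField K := ⟨⟩
  have h := infinite_setOf_exists_isArithFrobAt g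
  have hS' : {p : Nat.Primes | (p : ℕ) ∈ S}.Finite :=
    Set.Finite.of_finite_image (f := fun p : Nat.Primes => (p : ℕ))
      (hS.subset (by rintro _ ⟨p, hp, rfl⟩; exact hp)) Subtype.val_injective.injOn
  obtain ⟨p, ⟨hunr, P, hP1, hP2, σ, hσ, hσg⟩, hpS⟩ := (h.sdiff hS').nonempty
  refine ⟨p, p.2, hpS, P, hP1, ?_, σ, ?_, ?_, hσg⟩
  · have h1 : ((p : ℕ) : ℤ) ∈ P.under ℤ := by
      rw [← P.over_def (pp p)]
      exact Ideal.mem_span_singleton_self _
    simpa [Ideal.under] using h1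
  · intro x
    have := hσ x
    rw [natCard_quot K p P] at this
    exact this
  · intro τ hτ
    refine hunr.eq_of_isArithFrobAt P (fun x => ?_) hσ
    rw [natCard_quot K p P]
    exact hτ x

end finite

theorem sub_pow_mem_nonunits {K L : Type*} [Field K] [Field L] [Algebra K L]
    {A : ValuationSubring L} {σ : L ≃ₐ[K] L} {q : ℕ} (h : A.IsFrobeniusAt σ q) {x : L}
    (hx : x ∈ A) : σ x - x ^ q ∈ A.nonunits := by
  have h1 := h.smul_residue_eq (IsLocalRing.residue A ⟨x, hx⟩)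
  rw [← IsLocalRing.ResidueField.residue_smul, ← map_pow, ← sub_eq_zero, ← map_sub,
    IsLocalRing.residue_eq_zero_iff] at h1
  have h2 : σ x - x ^ q ∈ (A.nonunits : Set L) := by
    rw [← ValuationSubring.image_maximalIdeal]
    exact ⟨_, h1, rfl⟩
  exact h2

variable {L : Type*} [Field L] [CharZero L] [inst : Algebra ℚ L] [IsGalois ℚ L]

/-- **Frobenius density theorem** for places: for every open subgroup `U` of the absolute Galois
group and every `g`, there are a place `A` over a prime `ℓ ∉ S`, a Frobenius element `τ` at `A`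
and exponents `n, m` with `τ ^ n ∈ g U` and `g ^ m ∈ τ U`. -/
theorem exists_isFrobeniusAt_pow_mem (S : Set ℕ) (hS : S.Finite) (U : Subgroup (L ≃ₐ[ℚ] L))
    (hU : IsOpen (U : Set (L ≃ₐ[ℚ] L))) (g : L ≃ₐ[ℚ] L) :
    ∃ ℓ : ℕ, ℓ.Prime ∧ ℓ ∉ S ∧ ∃ A : ValuationSubring L, A.LiesOverPrime ℓ ∧
      ∃ τ : L ≃ₐ[ℚ] L, A.IsFrobeniusAt τ ℓ ∧
        ∃ n m : ℕ, g⁻¹ * τ ^ n ∈ U ∧ τ⁻¹ * g ^ m ∈ U := by
  obtain ⟨E, hfin, hnorm, hE⟩ := (krullTopology_mem_nhds_one_iff_of_normal ℚ L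
    (U : Set (L ≃ₐ[ℚ] L))).mp (hU.mem_nhds (one_mem U))
  letI algE : Algebra ℚ E := E.algebra'
  haveI := hfin
  haveI : Algebra.IsSeparable ℚ E := Algebra.IsAlgebraic.isSeparable_of_perfectField
  haveI : IsGalois ℚ E := ⟨⟩
  obtain ⟨p, hp, hpS, P, hP, hpP, σ, hσ, huniq, hσg⟩ :=
    exists_frobenius_finite E S hS (AlgEquiv.restrictNormal g E)
  -- a maximal ideal of the integral closure over `P`
  have hcomp : ∀ x : 𝓞 E, IsIntegral ℤ ((x : E) : L) := fun x =>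
    (RingOfIntegers.isIntegral_coe x).map (algebraMap E L).toIntAlgHom
  let i : 𝓞 E →+* integralClosure ℤ L :=
    { toFun := fun x => ⟨((x : E) : L), hcomp x⟩
      map_one' := by ext; simp
      map_mul' := fun x y => by ext; simp
      map_zero' := by ext; simp
      map_add' := fun x y => by ext; simp }
  letI : Algebra (𝓞 E) (integralClosure ℤ L) := i.toAlgebra
  haveI : Algebra.IsIntegral (𝓞 E) (integralClosure ℤ L) := ⟨fun x => by
    haveI : IsScalarTower ℤ (𝓞 E) (integralClosure ℤ L) := IsScalarTower.of_algebraMap_eq' (by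
      ext; simp)
    exact (Algebra.IsIntegral.isIntegral (R := ℤ) x).tower_top⟩
  have hinj : Function.Injective i := fun x y hxy => by
    have : ((x : E) : L) = ((y : E) : L) :=
      congrArg (fun z : integralClosure ℤ L => (z : L)) hxy
    exact RingOfIntegers.ext (by exact_mod_cast this)
  obtain ⟨Q, -, hQprime, hQ⟩ := Ideal.exists_ideal_over_prime_of_isIntegral P
    (⊥ : Ideal (integralClosure ℤ L)) (by
      change Ideal.comap i ⊥ ≤ P
      rw [Ideal.comap_bot_of_injective _ hinj]; exact bot_le)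
  haveI : NumberField E := by
    have h := hfin
    have h2 : algE = DivisionRing.toRatAlgebra := Subsingleton.elim _ _
    exact { to_charZero := inferInstance, to_finiteDimensional := h2 ▸ h }
  have hP0 : P ≠ ⊥ := by
    intro h
    rw [h, Ideal.mem_bot] at hpP
    exact hp.ne_zero (by exact_mod_cast hpP)
  haveI hPmax : P.IsMaximal := hP.isMaximal hP0
  haveI hQmax : Q.IsMaximal := Ideal.isMaximal_of_isIntegral_of_isMaximal_comap Q
    (by rw [hQ]; exact hPmax)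
  obtain ⟨A, hA⟩ := exists_center_eq Q
  have hAp : A.LiesOverPrime p := by
    have h1 : i (p : 𝓞 E) ∈ Q := by
      rw [← hQ] at hpP
      exact hpP
    rw [← hA, mem_center] at h1
    have h2 : ((i (p : 𝓞 E) : integralClosure ℤ L) : L) = (p : L) := by simp [i]
    rw [h2] at h1
    exact h1
  obtain ⟨τ, hτ⟩ := exists_isFrobeniusAt A hp hAp
  -- the restriction of `τ` is the Frobenius at `P`
  have hτσ : AlgEquiv.restrictNormal τ E = σ := by
    apply huniq
    intro x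
    have h1 : τ ((x : E) : L) - ((x : E) : L) ^ p ∈ A.nonunits :=
      sub_pow_mem_nonunits hτ (mem_of_isIntegral_int A (hcomp x))
    rw [← hQ, Ideal.mem_comap]
    change i _ ∈ Q
    rw [← hA, mem_center]
    have h2 : ((i (AlgEquiv.restrictNormal τ E • x - x ^ p) : integralClosure ℤ L) : L) =
        τ ((x : E) : L) - ((x : E) : L) ^ p := by
      have h3 : ((AlgEquiv.restrictNormal τ E (x : E) : E) : L) = τ ((x : E) : L) :=
        AlgEquiv.restrictNormal_commutes τ E (x : E)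
      rw [← h3]
      simp only [i, RingHom.coe_mk, MonoidHom.coe_mk, OneHom.coe_mk, map_sub, map_pow]
      rfl
    rw [h2]
    exact h1
  have key : ∀ ρ₁ ρ₂ : L ≃ₐ[ℚ] L, AlgEquiv.restrictNormal ρ₁ E = AlgEquiv.restrictNormal ρ₂ E →
      ρ₁⁻¹ * ρ₂ ∈ U := by
    intro ρ₁ ρ₂ h
    apply hE
    rw [SetLike.mem_coe, IntermediateField.mem_fixingSubgroup_iff]
    intro x hx
    have h1 : ((AlgEquiv.restrictNormal ρ₁ E ⟨x, hx⟩ : E) : L) = ρ₁ x :=
      AlgEquiv.restrictNormal_commutes ρ₁ E ⟨x, hx⟩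
    have h2 : ((AlgEquiv.restrictNormal ρ₂ E ⟨x, hx⟩ : E) : L) = ρ₂ x :=
      AlgEquiv.restrictNormal_commutes ρ₂ E ⟨x, hx⟩
    rw [AlgEquiv.mul_apply, ← h2, ← h, h1]
    exact ρ₁.symm_apply_apply x
  have hpow : ∀ (ρ : L ≃ₐ[ℚ] L) (n : ℕ), AlgEquiv.restrictNormal (ρ ^ n) E =
      (AlgEquiv.restrictNormal ρ E) ^ n := fun ρ n =>
    map_pow (AlgEquiv.restrictNormalHom E) ρ n
  refine ⟨p, hp, hpS, A, hAp, τ, hτ, ?_⟩
  haveI : Finite (E ≃ₐ[ℚ] E) := inferInstance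
  have h1 : AlgEquiv.restrictNormal g E ∈ Submonoid.powers σ := by
    rw [mem_powers_iff_mem_zpowers, hσg]
    exact Subgroup.mem_zpowers _
  have h2 : σ ∈ Submonoid.powers (AlgEquiv.restrictNormal g E) := by
    rw [mem_powers_iff_mem_zpowers, ← hσg]
    exact Subgroup.mem_zpowers _
  obtain ⟨n, hn⟩ := h1
  obtain ⟨m, hm⟩ := h2
  refine ⟨n, m, key _ _ ?_, key _ _ ?_⟩
  · rw [hpow, hτσ]; exact hn.symm
  · rw [hpow, hτσ]; exact hm.symm

/-- Induction principle: a property of elements of the absolute Galois group which is invariant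
under right translation by an open subgroup and which holds for all powers of all Frobenius
elements outside `S` holds everywhere. -/
theorem frobenius_induction (S : Set ℕ) (hS : S.Finite) (U : Subgroup (L ≃ₐ[ℚ] L))
    (hU : IsOpen (U : Set (L ≃ₐ[ℚ] L))) (P : (L ≃ₐ[ℚ] L) → Prop)
    (hPU : ∀ g u, u ∈ U → P g → P (g * u))
    (hP : ∀ ℓ : ℕ, ℓ.Prime → ℓ ∉ S → ∀ A : ValuationSubring L, A.LiesOverPrime ℓ →
      ∀ τ : L ≃ₐ[ℚ] L, A.IsFrobeniusAt τ ℓ → ∀ n : ℕ, P (τ ^ n)) (g : L ≃ₐ[ℚ] L) : P g := by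
  obtain ⟨ℓ, hℓ, hℓS, A, hA, τ, hτ, n, m, h1, -⟩ := exists_isFrobeniusAt_pow_mem S hS U hU g
  have h2 := hPU (τ ^ n) (g⁻¹ * τ ^ n)⁻¹ (inv_mem h1) (hP ℓ hℓ hℓS A hA τ hτ n)
  simpa using h2

/-- Powers of Frobenius elements are dense in the absolute Galois group. -/
theorem dense_frobenius_pow (S : Set ℕ) (hS : S.Finite) :
    Dense {g : L ≃ₐ[ℚ] L | ∃ ℓ : ℕ, ℓ.Prime ∧ ℓ ∉ S ∧ ∃ A : ValuationSubring L,
      A.LiesOverPrime ℓ ∧ ∃ τ : L ≃ₐ[ℚ] L, A.IsFrobeniusAt τ ℓ ∧ ∃ n : ℕ, g = τ ^ n} := by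
  intro g
  rw [mem_closure_iff_nhds]
  intro W hW
  have hW1 : (fun x => g * x) ⁻¹' W ∈ nhds (1 : L ≃ₐ[ℚ] L) :=
    (continuous_const_mul g).continuousAt.preimage_mem_nhds (by rwa [mul_one])
  obtain ⟨E, hfin, hE⟩ := (krullTopology_mem_nhds_one_iff ℚ L _).mp hW1
  obtain ⟨ℓ, hℓ, hℓS, A, hA, τ, hτ, n, m, h1, -⟩ := exists_isFrobeniusAt_pow_mem S hS
    E.fixingSubgroup (IntermediateField.fixingSubgroup_isOpen E) g
  have h2 : g * (g⁻¹ * τ ^ n) ∈ W := hE h1
  rw [mul_inv_cancel_left] at h2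
  exact ⟨τ ^ n, h2, ℓ, hℓ, hℓS, A, hA, τ, hτ, n, rfl⟩

end Fermat.Agent.Cheb
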