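import Fermat.Agent.Cheb.IdealCount

set_option autoImplicit false
set_option linter.unusedSectionVars false

/-!
# The sum over degree one primes

For a number field `K`, `∑_p a_K(p) p^{-s} - log (1/(s-1))` is bounded as `s → 1+`, where
`a_K(p)` is the number of ideals of norm `p`.
-/

namespace Fermat.Agent.Cheb

open NumberField Filter Topology

variable (K : Type*) [Field K] [NumberField K]

/-- the terms of the Dedekind zeta function at a real point -/
noncomputable def zs (s : ℝ) (n : ℕ) : ℝ := idealCount (𝓞 K) n * (n : ℝ) ^ (-s)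

theorem zs_nonneg (s : ℝ) (n : ℕ) : 0 ≤ zs K s n := by unfold zs; positivity

theorem term_eq_zs (s : ℝ) (hs : s ≠ 0) (n : ℕ) :
    LSeries.term (fun n ↦ Nat.card {I : Ideal (𝓞 K) // Ideal.absNorm I = n}) s n =
      ((zs K s n : ℝ) : ℂ) := by
  rcases eq_or_ne n 0 with rfl | hn
  · simp [zs, Real.zero_rpow (neg_ne_zero.mpr hs)]
  · rw [LSeries.term_of_ne_zero hn, zs, idealCount, Complex.ofReal_mul,
      Complex.ofReal_cpow (Nat.cast_nonneg n), Complex.ofReal_neg, Complex.cpow_neg]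
    simp [div_eq_mul_inv]

theorem dedekindZeta_eq (s : ℝ) (hs : s ≠ 0) :
    dedekindZeta K s = ((∑' n, zs K s n : ℝ) : ℂ) := by
  rw [Complex.ofReal_tsum, dedekindZeta, LSeries]
  exact tsum_congr (term_eq_zs K s hs)

theorem tendsto_sub_one_mul_tsum_zs :
    Tendsto (fun s : ℝ => (s - 1) * ∑' n, zs K s n) (𝓝[>] 1) (𝓝 (dedekindZeta_residue K)) := by
  have h := (Complex.continuous_re.tendsto _).comp (tendsto_sub_one_mul_dedekindZeta_nhdsGT K)
  rw [Complex.ofReal_re] at h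
  refine h.congr' ?_
  filter_upwards [self_mem_nhdsWithin] with s hs
  have hs1 : (1 : ℝ) < s := hs
  simp only [Function.comp_apply]
  rw [dedekindZeta_eq K s (by linarith)]
  rw [← Complex.ofReal_one, ← Complex.ofReal_sub, ← Complex.ofReal_mul, Complex.ofReal_re]

theorem eventually_good :
    ∀ᶠ s : ℝ in 𝓝[>] 1, 1 < s ∧ Summable (zs K s) ∧ 0 < ∑' n, zs K s n := by
  have h := (tendsto_sub_one_mul_tsum_zs K).eventually_const_lt
    (dedekindZeta_residue_pos K)
  filter_upwards [h, self_mem_nhdsWithin] with s hs hs1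
  have hs1 : (1 : ℝ) < s := hs1
  have h0 : 0 < ∑' n, zs K s n := by
    by_contra! h
    have : (s - 1) * ∑' n, zs K s n ≤ 0 :=
      mul_nonpos_of_nonneg_of_nonpos (by linarith) h
    linarith
  refine ⟨hs1, ?_, h0⟩
  by_contra h
  rw [tsum_eq_zero_of_not_summable h] at h0
  exact lt_irrefl _ h0

/-- constant in the local estimates -/
noncomputable def C1 : ℝ :=
  ∑' e : ℕ, ((e + 3 : ℕ) : ℝ) ^ (Module.finrank ℤ (𝓞 K)) * (1 / 2 : ℝ) ^ e

theorem summable_C1 : Summable fun e : ℕ =>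
    ((e + 3 : ℕ) : ℝ) ^ (Module.finrank ℤ (𝓞 K)) * (1 / 2 : ℝ) ^ e := by
  have h := summable_pow_mul_geometric_of_norm_lt_one (R := ℝ) (Module.finrank ℤ (𝓞 K))
    (r := 1 / 2) (by rw [Real.norm_eq_abs, abs_of_pos] <;> norm_num)
  have h2 := ((summable_nat_add_iff 3).mpr h).mul_right ((1 / 2 : ℝ) ^ 3)⁻¹
  refine h2.congr fun e => ?_
  rw [pow_add]
  field_simp

theorem C1_nonneg : 0 ≤ C1 K := tsum_nonneg fun _ => by positivity

theorem zs_prime_pow_le {s : ℝ} (hs : 1 ≤ s) {p : ℕ} (hp : p.Prime) (e : ℕ) :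
    zs K s (p ^ (e + 2)) ≤
      ((e + 3 : ℕ) : ℝ) ^ (Module.finrank ℤ (𝓞 K)) * (1 / 2 : ℝ) ^ e * (p : ℝ) ^ (-2 : ℝ) := by
  have hp1 : (1 : ℝ) ≤ p := by exact_mod_cast hp.one_le
  have hp0 : (0 : ℝ) < p := by linarith
  have h1 : (idealCount (𝓞 K) (p ^ (e + 2)) : ℝ) ≤
      ((e + 3 : ℕ) : ℝ) ^ (Module.finrank ℤ (𝓞 K)) := by
    exact_mod_cast idealCount_prime_pow_le (S := 𝓞 K) hp (e + 2)
  have h2 : (((p ^ (e + 2) : ℕ) : ℝ)) ^ (-s) ≤ (1 / 2 : ℝ) ^ e * (p : ℝ) ^ (-2 : ℝ) := by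
    calc (((p ^ (e + 2) : ℕ) : ℝ)) ^ (-s) ≤ (((p ^ (e + 2) : ℕ) : ℝ)) ^ (-1 : ℝ) := by
          apply Real.rpow_le_rpow_of_exponent_le
          · exact_mod_cast Nat.one_le_pow _ _ hp.pos
          · linarith
      _ = ((p : ℝ)⁻¹) ^ e * (p : ℝ) ^ (-2 : ℝ) := by
          rw [Real.rpow_neg_one, Nat.cast_pow, pow_add, mul_inv, inv_pow]
          congr 1
          rw [Real.rpow_neg hp0.le]
          norm_num
      _ ≤ (1 / 2 : ℝ) ^ e * (p : ℝ) ^ (-2 : ℝ) := by
          gcongr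
          rw [one_div]
          gcongr
          exact_mod_cast hp.two_le
  rw [mul_assoc]
  exact mul_le_mul h1 h2 (by positivity) (by positivity)

theorem tail_le {s : ℝ} (hs : 1 ≤ s) {p : ℕ} (hp : p.Prime) :
    ∑' e : ℕ, zs K s (p ^ (e + 2)) ≤ C1 K * (p : ℝ) ^ (-2 : ℝ) := by
  rw [C1, ← tsum_mul_right]
  have h := (summable_C1 K).mul_right ((p : ℝ) ^ (-2 : ℝ))
  refine Summable.tsum_le_tsum (zs_prime_pow_le K hs hp) ?_ h
  exact h.of_nonneg_of_le (fun _ => zs_nonneg K _ _) (zs_prime_pow_le K hs hp)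

theorem tail_nonneg (s : ℝ) (p : ℕ) :
    0 ≤ ∑' e : ℕ, zs K s (p ^ (e + 2)) := tsum_nonneg fun _ => zs_nonneg K _ _

theorem local_factor {s : ℝ} (hsum : Summable (zs K s)) {p : ℕ} (hp : p.Prime) :
    ∑' e : ℕ, zs K s (p ^ e) = 1 + (zs K s p + ∑' e : ℕ, zs K s (p ^ (e + 2))) := by
  have h := hsum.comp_injective (Nat.pow_right_injective hp.two_le)
  change ∑' e : ℕ, (zs K s ∘ fun x => p ^ x) e = _
  rw [← Summable.sum_add_tsum_nat_add 2 h, Finset.sum_range_succ, Finset.sum_range_one]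
  simp only [Function.comp_apply, pow_zero, pow_one]
  have : zs K s 1 = 1 := by simp [zs, idealCount_one]
  rw [this, add_assoc]

theorem zs_prime_le {s : ℝ} (hs : 1 ≤ s) {p : ℕ} (hp : p.Prime) :
    zs K s p ≤ 2 ^ (Module.finrank ℤ (𝓞 K)) * (p : ℝ)⁻¹ := by
  have hp1 : (1 : ℝ) ≤ p := by exact_mod_cast hp.one_le
  have h1 : (idealCount (𝓞 K) p : ℝ) ≤ 2 ^ (Module.finrank ℤ (𝓞 K)) := by
    have := idealCount_prime_pow_le (S := 𝓞 K) hp 1
    rw [pow_one] at this
    exact_mod_cast this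
  have h2 : (p : ℝ) ^ (-s) ≤ (p : ℝ)⁻¹ := by
    rw [← Real.rpow_neg_one]
    exact Real.rpow_le_rpow_of_exponent_le hp1 (by linarith)
  exact mul_le_mul h1 h2 (by positivity) (by positivity)

/-- second constant -/
noncomputable def C2 : ℝ := C1 K + (2 ^ (Module.finrank ℤ (𝓞 K)) + C1 K) ^ 2

theorem abs_log_local_factor_sub_le {s : ℝ} (hs : 1 ≤ s) (hsum : Summable (zs K s)) {p : ℕ}
    (hp : p.Prime) :
    |Real.log (∑' e : ℕ, zs K s (p ^ e)) - zs K s p| ≤ C2 K * (p : ℝ) ^ (-2 : ℝ) := by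
  have hp1 : (1 : ℝ) ≤ p := by exact_mod_cast hp.one_le
  have hp0 : (0 : ℝ) < p := by linarith
  rw [local_factor K hsum hp]
  set R := ∑' e : ℕ, zs K s (p ^ (e + 2)) with hR
  set y := zs K s p with hy
  have hR0 : 0 ≤ R := tail_nonneg K s p
  have hR1 : R ≤ C1 K * (p : ℝ) ^ (-2 : ℝ) := tail_le K hs hp
  have hy0 : 0 ≤ y := zs_nonneg K s p
  have hy1 : y ≤ 2 ^ (Module.finrank ℤ (𝓞 K)) * (p : ℝ)⁻¹ := zs_prime_le K hs hp
  have hpp : (p : ℝ) ^ (-2 : ℝ) = (p : ℝ)⁻¹ ^ 2 := by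
    rw [Real.rpow_neg hp0.le, inv_pow]; norm_num
  have hpi : (p : ℝ)⁻¹ ≤ 1 := inv_le_one_of_one_le₀ hp1
  have hpi0 : 0 < (p : ℝ)⁻¹ := by positivity
  have hC1 := C1_nonneg K
  have hx1 : y + R ≤ (2 ^ (Module.finrank ℤ (𝓞 K)) + C1 K) * (p : ℝ)⁻¹ := by
    have : (p : ℝ)⁻¹ ^ 2 ≤ (p : ℝ)⁻¹ := by
      rw [pow_two]; exact mul_le_of_le_one_left hpi0.le hpi
    rw [hpp] at hR1
    have h3 : C1 K * (p : ℝ)⁻¹ ^ 2 ≤ C1 K * (p : ℝ)⁻¹ := mul_le_mul_of_nonneg_left this hC1
    nlinarith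
  have hx0 : 0 ≤ y + R := by linarith
  have hsq : (y + R) ^ 2 ≤ (2 ^ (Module.finrank ℤ (𝓞 K)) + C1 K) ^ 2 * (p : ℝ) ^ (-2 : ℝ) := by
    rw [hpp, ← mul_pow]
    exact pow_le_pow_left₀ hx0 hx1 2
  have hlog1 : Real.log (1 + (y + R)) ≤ y + R := by
    have := Real.log_le_sub_one_of_pos (show 0 < 1 + (y + R) by linarith)
    linarith
  have hlog2 : (y + R) - (y + R) ^ 2 ≤ Real.log (1 + (y + R)) := by
    have h := Real.one_sub_inv_le_log_of_pos (show 0 < 1 + (y + R) by linarith)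
    refine le_trans ?_ h
    have h4 : 1 - (1 + (y + R))⁻¹ = (y + R) / (1 + (y + R)) := by
      have : (1 + (y + R)) ≠ 0 := by linarith
      field_simp
      ring
    rw [h4, le_div_iff₀ (by linarith)]
    nlinarith [pow_nonneg hx0 3]
  rw [abs_le, C2]
  constructor <;> nlinarith

theorem exists_bound_log : ∃ C : ℝ, ∀ s : ℝ, 1 ≤ s → Summable (zs K s) →
    0 < ∑' n, zs K s n →
    |Real.log (∑' n, zs K s n) - ∑' p : Nat.Primes, zs K s p| ≤ C := by
  refine ⟨∑' p : Nat.Primes, C2 K * ((p : ℕ) : ℝ) ^ (-2 : ℝ), fun s hs hsum hpos => ?_⟩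
  have hS2 : Summable fun p : Nat.Primes => C2 K * ((p : ℕ) : ℝ) ^ (-2 : ℝ) :=
    (Nat.Primes.summable_rpow.mpr (by norm_num)).mul_left _
  have hzs1 : zs K s 1 = 1 := by simp [zs, idealCount_one]
  have hzs0 : zs K s 0 = 0 := by
    simp [zs, Real.zero_rpow (show -s ≠ 0 by linarith)]
  have hE : HasProd (fun p : Nat.Primes ↦ ∑' e, zs K s ((p : ℕ) ^ e)) (∑' n, zs K s n) := by
    refine EulerProduct.eulerProduct_hasProd hzs1 ?_ hsum.norm hzs0
    intro m n hmn
    rcases eq_or_ne m 0 with rfl | hm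
    · rw [zero_mul, hzs0, zero_mul]
    rcases eq_or_ne n 0 with rfl | hn
    · rw [mul_zero, hzs0, mul_zero]
    unfold zs
    rw [idealCount_mul hmn hm hn]
    push_cast
    rw [Real.mul_rpow (by positivity) (by positivity)]
    ring
  have hlogs : HasSum (fun p : Nat.Primes ↦ Real.log (∑' e, zs K s ((p : ℕ) ^ e)))
      (Real.log (∑' n, zs K s n)) := by
    have h1 := (Real.continuousAt_log hpos.ne').tendsto.comp hE
    refine h1.congr fun T => ?_
    simp only [Function.comp_apply]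
    rw [Real.log_prod]
    intro p _
    rw [local_factor K hsum p.2]
    have := tail_nonneg K s p
    have := zs_nonneg K s p
    linarith
  have hzsS : Summable fun p : Nat.Primes => zs K s p :=
    hsum.comp_injective Subtype.val_injective
  rw [← hlogs.tsum_eq, ← (hlogs.summable.tsum_sub hzsS), ← Real.norm_eq_abs]
  refine tsum_of_norm_bounded hS2.hasSum fun p => ?_
  rw [Real.norm_eq_abs]
  exact abs_log_local_factor_sub_le K hs hsum p.2

/-- The Dirichlet series `∑_p b(p) p^{-s}`. -/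
noncomputable def primeSum (b : Nat.Primes → ℝ) (s : ℝ) : ℝ :=
  ∑' p : Nat.Primes, b p * ((p : ℕ) : ℝ) ^ (-s)

theorem summable_primeSum {b : Nat.Primes → ℝ} {B : ℝ} (hB : ∀ p, |b p| ≤ B) {s : ℝ}
    (hs : 1 < s) : Summable fun p : Nat.Primes => b p * ((p : ℕ) : ℝ) ^ (-s) := by
  have h : Summable fun p : Nat.Primes => B * ((p : ℕ) : ℝ) ^ (-s) :=
    (Nat.Primes.summable_rpow.mpr (by linarith)).mul_left _
  refine Summable.of_norm_bounded h fun p => ?_
  rw [norm_mul, Real.norm_eq_abs, Real.norm_eq_abs, abs_of_nonneg (a := _ ^ _) (by positivity)]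
  exact mul_le_mul_of_nonneg_right (hB p) (by positivity)

/-- `b` has (Dirichlet) mean `δ`. -/
def HasMean (b : Nat.Primes → ℝ) (δ : ℝ) : Prop :=
  (∃ B, ∀ p, |b p| ≤ B) ∧
  Tendsto (fun s : ℝ => primeSum b s / Real.log (1 / (s - 1))) (𝓝[>] 1) (𝓝 δ)

theorem tendsto_log_atTop : Tendsto (fun s : ℝ => Real.log (1 / (s - 1))) (𝓝[>] 1) atTop := by
  refine Real.tendsto_log_atTop.comp ?_
  simp only [one_div]
  refine tendsto_inv_nhdsGT_zero.comp ?_
  rw [tendsto_nhdsWithin_iff]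
  refine ⟨?_, ?_⟩
  · have : Tendsto (fun s : ℝ => s - 1) (𝓝 1) (𝓝 (1 - 1)) :=
      (continuous_id.sub continuous_const).tendsto 1
    rw [sub_self] at this
    exact this.mono_left nhdsWithin_le_nhds
  · filter_upwards [self_mem_nhdsWithin] with s hs
    exact sub_pos.mpr (show (1 : ℝ) < s from hs)

theorem HasMean.add {b c : Nat.Primes → ℝ} {β γ : ℝ} (hb : HasMean b β) (hc : HasMean c γ) :
    HasMean (fun p => b p + c p) (β + γ) := by
  obtain ⟨⟨B, hB⟩, hb⟩ := hb
  obtain ⟨⟨C, hC⟩, hc⟩ := hc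
  refine ⟨⟨B + C, fun p => (abs_add_le _ _).trans (add_le_add (hB p) (hC p))⟩, ?_⟩
  refine (hb.add hc).congr' ?_
  filter_upwards [self_mem_nhdsWithin] with s hs
  rw [← add_div]
  congr 1
  unfold primeSum
  rw [← (summable_primeSum hB hs).tsum_add (summable_primeSum hC hs)]
  exact tsum_congr fun p => by ring

theorem HasMean.const_mul {b : Nat.Primes → ℝ} {β : ℝ} (hb : HasMean b β) (c : ℝ) :
    HasMean (fun p => c * b p) (c * β) := by
  obtain ⟨⟨B, hB⟩, hb⟩ := hb
  refine ⟨⟨|c| * B, fun p => ?_⟩, ?_⟩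
  · rw [abs_mul]
    exact mul_le_mul_of_nonneg_left (hB p) (abs_nonneg c)
  refine (hb.const_mul c).congr fun s => ?_
  rw [← mul_div_assoc]
  congr 1
  unfold primeSum
  rw [← tsum_mul_left]
  exact tsum_congr fun p => by ring

theorem HasMean.sub {b c : Nat.Primes → ℝ} {β γ : ℝ} (hb : HasMean b β) (hc : HasMean c γ) :
    HasMean (fun p => b p - c p) (β - γ) := by
  have := hb.add (hc.const_mul (-1))
  convert this using 1
  · ext p; ring
  · ring

theorem hasMean_of_finite {b : Nat.Primes → ℝ} (hb : (Function.support b).Finite) :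
    HasMean b 0 := by
  classical
  have hB : ∀ p, |b p| ≤ ∑ q ∈ hb.toFinset, |b q| := by
    intro p
    by_cases hp : p ∈ Function.support b
    · exact Finset.single_le_sum (f := fun q => |b q|) (fun _ _ => abs_nonneg _)
        (hb.mem_toFinset.mpr hp)
    · rw [Function.notMem_support.mp hp, abs_zero]
      exact Finset.sum_nonneg fun _ _ => abs_nonneg _
  refine ⟨⟨_, hB⟩, ?_⟩
  have h1 : ∀ s : ℝ, 1 < s → |primeSum b s| ≤ ∑ q ∈ hb.toFinset, |b q| := by
    intro s hs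
    unfold primeSum
    rw [tsum_eq_sum (s := hb.toFinset)]
    · refine (Finset.abs_sum_le_sum_abs _ _).trans (Finset.sum_le_sum fun q _ => ?_)
      rw [abs_mul]
      refine mul_le_of_le_one_right (abs_nonneg _) ?_
      rw [abs_of_nonneg (by positivity)]
      exact Real.rpow_le_one_of_one_le_of_nonpos (by exact_mod_cast q.2.one_le) (by linarith)
    · intro q hq
      rw [Set.Finite.mem_toFinset, Function.notMem_support] at hq
      rw [hq, zero_mul]
  refine squeeze_zero_norm' (a := fun s : ℝ =>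
    (∑ q ∈ hb.toFinset, |b q|) / Real.log (1 / (s - 1))) ?_ ?_
  · filter_upwards [self_mem_nhdsWithin, tendsto_log_atTop.eventually_gt_atTop 0] with s hs hs2
    rw [norm_div, Real.norm_eq_abs, Real.norm_eq_abs, abs_of_pos hs2]
    exact div_le_div_of_nonneg_right (h1 s hs) hs2.le
  · exact tendsto_log_atTop.const_div_atTop _

theorem HasMean.congr {b c : Nat.Primes → ℝ} {β : ℝ} (hb : HasMean b β)
    (h : {p | b p ≠ c p}.Finite) : HasMean c β := by
  have h1 : HasMean (fun p => c p - b p) 0 := hasMean_of_finite (h.subset fun p hp => by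
    rw [Function.mem_support] at hp
    intro h
    exact hp (by rw [h, sub_self]))
  convert hb.add h1 using 1
  · ext p; ring
  · ring

theorem hasMean_zero : HasMean (fun _ => 0) 0 :=
  hasMean_of_finite (by simp [Function.support])

theorem HasMean.sum {ι : Type*} (T : Finset ι) {b : ι → Nat.Primes → ℝ} {β : ι → ℝ}
    (h : ∀ i ∈ T, HasMean (b i) (β i)) : HasMean (fun p => ∑ i ∈ T, b i p) (∑ i ∈ T, β i) := by
  classical
  induction T using Finset.induction_on with
  | empty => simpa using hasMean_zero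
  | insert a T ha ih =>
    have h1 := (h a (Finset.mem_insert_self _ _)).add
      (ih fun i hi => h i (Finset.mem_insert_of_mem hi))
    convert h1 using 1
    · ext p; rw [Finset.sum_insert ha]
    · rw [Finset.sum_insert ha]

theorem HasMean.infinite {b : Nat.Primes → ℝ} {β : ℝ} (hb : HasMean b β) (hβ : β ≠ 0) :
    (Function.support b).Infinite := by
  intro hfin
  have h := (hasMean_of_finite hfin).2
  exact hβ (tendsto_nhds_unique hb.2 h)

/-- **Degree one primes have density one**: the number `a_K(p)` of ideals of `𝓞 K` of norm `p`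
has mean `1`. -/
theorem hasMean_idealCount : HasMean (fun p => (idealCount (𝓞 K) p : ℝ)) 1 := by
  refine ⟨⟨2 ^ (Module.finrank ℤ (𝓞 K)), fun p => ?_⟩, ?_⟩
  · have h := idealCount_prime_pow_le (S := 𝓞 K) p.2 1
    rw [pow_one] at h
    rw [abs_of_nonneg (by positivity)]
    have h' : ((idealCount (𝓞 K) (p : ℕ) : ℕ) : ℝ) ≤
      (((1 + 1) ^ (Module.finrank ℤ (𝓞 K)) : ℕ) : ℝ) := Nat.cast_le.mpr h
    push_cast at h'
    exact h'
  obtain ⟨C, hC⟩ := exists_bound_log K
  have hres := dedekindZeta_residue_pos K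
  -- the difference to `log (1/(s-1))` is bounded
  have h1 : ∀ᶠ s : ℝ in 𝓝[>] 1, |Real.log ((s - 1) * ∑' n, zs K s n)| ≤
      |Real.log (dedekindZeta_residue K)| + 1 := by
    have h2 := ((Real.continuousAt_log hres.ne').tendsto.comp (tendsto_sub_one_mul_tsum_zs K)).abs
    have h3 := h2.eventually_le_const (lt_add_one _)
    filter_upwards [h3] with s hs using hs
  have h4 : ∀ᶠ s : ℝ in 𝓝[>] 1,
      |primeSum (fun p => (idealCount (𝓞 K) p : ℝ)) s / Real.log (1 / (s - 1)) - 1| ≤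
        (|Real.log (dedekindZeta_residue K)| + 1 + C) / Real.log (1 / (s - 1)) := by
    filter_upwards [h1, eventually_good K, tendsto_log_atTop.eventually_gt_atTop 0] with
      s hs1 ⟨hs2, hsum, hpos⟩ hs3
    have h5 : primeSum (fun p => (idealCount (𝓞 K) p : ℝ)) s / Real.log (1 / (s - 1)) - 1 =
        (primeSum (fun p => (idealCount (𝓞 K) p : ℝ)) s - Real.log (1 / (s - 1))) /
          Real.log (1 / (s - 1)) := by
      field_simp
    rw [h5, abs_div, abs_of_pos hs3]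
    refine div_le_div_of_nonneg_right ?_ hs3.le
    have h6 := hC s hs2.le hsum hpos
    have h7 : Real.log ((s - 1) * ∑' n, zs K s n) =
        Real.log (∑' n, zs K s n) - Real.log (1 / (s - 1)) := by
      rw [Real.log_mul (by linarith) hpos.ne', one_div, Real.log_inv]
      ring
    rw [h7] at hs1
    have h8 : primeSum (fun p => (idealCount (𝓞 K) p : ℝ)) s = ∑' p : Nat.Primes, zs K s p := rfl
    rw [h8]
    rw [abs_le] at hs1 h6 ⊢
    constructor <;> linarith [hs1.1, hs1.2, h6.1, h6.2]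
  rw [tendsto_iff_norm_sub_tendsto_zero]
  refine squeeze_zero' (Eventually.of_forall fun _ => norm_nonneg _) ?_
    (tendsto_log_atTop.const_div_atTop (|Real.log (dedekindZeta_residue K)| + 1 + C))
  filter_upwards [h4] with s hs using hs

end Fermat.Agent.Cheb
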