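import Fermat.Agent.Cheb.Analytic

set_option autoImplicit false
set_option linter.unusedSectionVars false
set_option linter.style.haveILetI false

/-!
# The Frobenius density theorem over `ℚ`
-/

namespace Fermat.Agent.Cheb

open NumberField Filter Topology Ideal

variable (K : Type*) [Field K] [NumberField K] [IsGalois ℚ K]

/-- the fixed field of `H` -/
abbrev FF (H : Subgroup Gal(K/ℚ)) : IntermediateField ℚ K := FixedPoints.intermediateField H

instance isGaloisGroup_ringOfIntegers (H : Subgroup Gal(K/ℚ)) :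
    IsGaloisGroup H (𝓞 (FF K H)) (𝓞 K) :=
  IsGaloisGroup.of_isFractionRing H (𝓞 (FF K H)) (𝓞 K) (FF K H) K

instance isGaloisGroup_int : IsGaloisGroup Gal(K/ℚ) ℤ (𝓞 K) :=
  IsGaloisGroup.of_isFractionRing Gal(K/ℚ) ℤ (𝓞 K) ℚ K

/-- the rational prime ideal -/
abbrev pp (p : Nat.Primes) : Ideal ℤ := span {((p : ℕ) : ℤ)}

instance (p : Nat.Primes) : (pp p).IsMaximal :=
  haveI : Fact (Nat.Prime (p : ℕ)) := ⟨p.2⟩
  Int.ideal_span_isMaximal_of_prime _

theorem pp_ne_bot (p : Nat.Primes) : pp p ≠ ⊥ := by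
  rw [Ne, Ideal.span_singleton_eq_bot]
  exact_mod_cast p.2.ne_zero

theorem natCard_quot (p : Nat.Primes) (P : Ideal (𝓞 K)) [hP : P.LiesOver (pp p)] :
    Nat.card (ℤ ⧸ P.under ℤ) = p := by
  rw [← P.over_def (pp p)]
  exact Int.card_ideal_quot p

variable {K}

theorem absNorm_under_eq_of_mem {H : Subgroup Gal(K/ℚ)} {p : Nat.Primes} {P : Ideal (𝓞 K)}
    [P.IsPrime] [P.LiesOver (pp p)] {σ : Gal(K/ℚ)} (hσ : IsArithFrobAt ℤ σ P) (hσH : σ ∈ H) :
    absNorm (P.under (𝓞 (FF K H))) = p := by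
  set q := P.under (𝓞 (FF K H)) with hq
  haveI : q.LiesOver (pp p) := by
    rw [Ideal.liesOver_iff, hq, Ideal.under_under]
    exact P.over_def (pp p)
  have hq0 : q ≠ ⊥ := Ideal.ne_bot_of_liesOver_of_ne_bot (pp_ne_bot p) q
  haveI : q.IsPrime := inferInstance
  haveI : q.IsMaximal := Ideal.IsPrime.isMaximal inferInstance hq0
  letI : Field (𝓞 (FF K H) ⧸ q) := Ideal.Quotient.field q
  have hcard : p ^ q.inertiaDeg ℤ = absNorm q := Ideal.pow_inertiaDeg p q
  have hf : 0 < q.inertiaDeg ℤ := Ideal.inertiaDeg_pos q ℤ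
  haveI : Finite (𝓞 (FF K H) ⧸ q) := by
    rw [← Ideal.absNorm_ne_zero_iff, ← hcard]
    exact pow_ne_zero _ p.2.ne_zero
  have hpow : ∀ y : 𝓞 (FF K H) ⧸ q, y ^ (p : ℕ) = y := by
    intro y
    obtain ⟨x, rfl⟩ := Ideal.Quotient.mk_surjective y
    rw [← map_pow, Ideal.Quotient.eq, hq, Ideal.mem_comap, map_sub, map_pow]
    have h := hσ (algebraMap (𝓞 (FF K H)) (𝓞 K) x)
    rw [natCard_quot K p P] at h
    have h2 : (MulSemiringAction.toAlgHom ℤ (𝓞 K) σ) (algebraMap (𝓞 (FF K H)) (𝓞 K) x) =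
        algebraMap (𝓞 (FF K H)) (𝓞 K) x :=
      smul_algebraMap (⟨σ, hσH⟩ : H) x
    rw [h2] at h
    rw [← neg_sub]
    exact neg_mem h
  obtain ⟨g, hg⟩ := IsCyclic.exists_generator (α := (𝓞 (FF K H) ⧸ q)ˣ)
  have hord : orderOf g = absNorm q - 1 := by
    rw [orderOf_eq_card_of_forall_mem_zpowers hg, Nat.card_units]
    rfl
  have hg1 : g ^ ((p : ℕ) - 1) = 1 := by
    have h3 : g ^ (p : ℕ) = g := Units.ext (by rw [Units.val_pow_eq_pow_val]; exact hpow _)
    have h4 : g ^ ((p : ℕ) - 1) * g = 1 * g := by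
      rw [← pow_succ, Nat.sub_add_cancel p.2.one_le, h3, one_mul]
    exact mul_right_cancel h4
  have h5 : absNorm q - 1 ∣ (p : ℕ) - 1 := hord ▸ orderOf_dvd_of_pow_eq_one hg1
  have h6 : absNorm q - 1 ≤ (p : ℕ) - 1 := Nat.le_of_dvd (by have := p.2.one_lt; omega) h5
  have h7 : (p : ℕ) ≤ absNorm q := by
    rw [← hcard]
    exact Nat.le_self_pow hf.ne' _
  have := p.2.one_lt
  omega

theorem mem_of_absNorm_under_eq {H : Subgroup Gal(K/ℚ)} {p : Nat.Primes} {P : Ideal (𝓞 K)}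
    [P.IsPrime] [P.LiesOver (pp p)] {σ : Gal(K/ℚ)} (hσ : IsArithFrobAt ℤ σ P)
    (hin : P.inertia Gal(K/ℚ) = ⊥) (hN : absNorm (P.under (𝓞 (FF K H))) = p) : σ ∈ H := by
  haveI : Finite (𝓞 K ⧸ P) := by
    rw [← Ideal.absNorm_ne_zero_iff, ← Ideal.pow_inertiaDeg p P]
    exact pow_ne_zero _ p.2.ne_zero
  obtain ⟨τ, hτ⟩ := IsArithFrobAt.exists_of_isInvariant (𝓞 (FF K H)) H P
  have hτ' : IsArithFrobAt ℤ (τ : Gal(K/ℚ)) P := by
    intro x
    have h := hτ x
    have h1 : Nat.card (𝓞 (FF K H) ⧸ P.under (𝓞 (FF K H))) = p := hN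
    rw [h1] at h
    rw [natCard_quot K p P]
    exact h
  have h2 := IsArithFrobAt.mul_inv_mem_inertia hσ hτ'
  rw [hin, Subgroup.mem_bot, mul_inv_eq_one] at h2
  rw [h2]
  exact τ.2

variable (K)

/-- `p` is unramified in `K`. -/
def Unr (p : Nat.Primes) : Prop := Algebra.IsUnramifiedIn (𝓞 K) (pp p)

theorem finite_not_unr : {p : Nat.Primes | ¬ Unr K p}.Finite := by
  have h : {n : ℕ | n ∣ (discr K).natAbs}.Finite := by
    have h0 : (discr K).natAbs ≠ 0 := Int.natAbs_ne_zero.mpr (discr_ne_zero K)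
    exact (Finset.finite_toSet (Nat.divisors (discr K).natAbs)).subset fun n hn => by
      simpa [h0] using hn
  refine Set.Finite.of_finite_image (f := fun p : Nat.Primes => (p : ℕ)) (h.subset ?_)
    Subtype.val_injective.injOn
  rintro _ ⟨p, hp, rfl⟩
  have hp' : ¬ Unr K p := hp
  rw [Unr, ← NumberField.not_dvd_discr_iff_isUnramifiedIn K (𝓞 K)
    (Nat.prime_iff_prime_int.mp p.2), not_not] at hp'
  exact Int.natCast_dvd.mp hp'

variable {K}

theorem Unr.ramificationIdx_eq_one {p : Nat.Primes} (h : Unr K p) (P : Ideal (𝓞 K))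
    [P.IsPrime] [hP : P.LiesOver (pp p)] : P.ramificationIdx ℤ = 1 :=
  Algebra.IsUnramifiedIn.ramificationIdx_eq_one h hP

theorem Unr.inertia_eq_bot {p : Nat.Primes} (h : Unr K p) (P : Ideal (𝓞 K))
    [P.IsPrime] [hP : P.LiesOver (pp p)] : P.inertia Gal(K/ℚ) = ⊥ := by
  haveI : PerfectField (pp p).ResidueField := by
    haveI : Finite (ℤ ⧸ pp p) := by
      apply Nat.finite_of_card_ne_zero
      rw [Int.card_ideal_quot p]
      exact p.2.ne_zero
    letI : Field (ℤ ⧸ pp p) := Ideal.Quotient.field _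
    haveI : Finite (pp p).ResidueField := 
      Finite.of_surjective _ (Ideal.bijective_algebraMap_quotient_residueField (pp p)).2
    infer_instance
  apply Subgroup.eq_bot_of_card_eq
  rw [card_inertia_eq_ramificationIdxIn (G := Gal(K/ℚ)) (pp p) P,
    Ideal.ramificationIdxIn_eq_ramificationIdx (pp p) P Gal(K/ℚ)]
  exact h.ramificationIdx_eq_one P

theorem Unr.eq_of_isArithFrobAt {p : Nat.Primes} (h : Unr K p) (P : Ideal (𝓞 K))
    [P.IsPrime] [hP : P.LiesOver (pp p)] {σ τ : Gal(K/ℚ)} (hσ : IsArithFrobAt ℤ σ P)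
    (hτ : IsArithFrobAt ℤ τ P) : σ = τ := by
  have h2 := IsArithFrobAt.mul_inv_mem_inertia hσ hτ
  rwa [h.inertia_eq_bot P, Subgroup.mem_bot, mul_inv_eq_one] at h2

variable (K)

/-- the primes of `K` over `p` -/
noncomputable def T (p : Nat.Primes) : Finset (Ideal (𝓞 K)) :=
  (Algebra.QuasiFinite.finite_primesOver (S := 𝓞 K) (pp p)).toFinset

variable {K}

theorem mem_T {p : Nat.Primes} {P : Ideal (𝓞 K)} : P ∈ T K p ↔ P.IsPrime ∧ P.LiesOver (pp p) := by
  rw [T, Set.Finite.mem_toFinset]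
  rfl

theorem isPrime_of_absNorm {F : Type*} [Field F] [NumberField F] {p : Nat.Primes}
    {q : Ideal (𝓞 F)} (hq : absNorm q = p) : q.IsPrime ∧ q.LiesOver (pp p) := by
  have hq1 : q.IsPrime := Ideal.isPrime_of_irreducible_absNorm (by
    rw [hq]; exact p.2.prime.irreducible)
  refine ⟨hq1, ?_⟩
  rw [Ideal.liesOver_iff]
  refine Ideal.IsMaximal.eq_of_le inferInstance (Ideal.IsPrime.ne_top inferInstance) ?_
  rw [Ideal.span_singleton_le_iff_mem, Ideal.under, Ideal.mem_comap]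
  have := absNorm_mem q
  rw [hq] at this
  simpa using this

open scoped Classical in
theorem sum_inertiaDeg_over {H : Subgroup Gal(K/ℚ)} {p : Nat.Primes} (hp : Unr K p)
    {q : Ideal (𝓞 (FF K H))} (hq : absNorm q = p) :
    ∑ P ∈ (T K p).filter (fun P => P.under (𝓞 (FF K H)) = q), P.inertiaDeg ℤ = Nat.card H := by
  obtain ⟨hq1, hq2⟩ := isPrime_of_absNorm hq
  haveI : Fintype (q.primesOver (𝓞 K)) :=
    (Algebra.QuasiFinite.finite_primesOver (S := 𝓞 K) q).fintype
  rw [← Ideal.sum_ramification_inertia_eq_card q (𝓞 K) (G := H)]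
  rw [Finset.sum_subtype ((T K p).filter (fun P => P.under (𝓞 (FF K H)) = q))
    (p := fun P => P ∈ q.primesOver (𝓞 K))]
  · refine Finset.sum_congr rfl fun P _ => ?_
    haveI := P.2.1
    haveI := P.2.2
    haveI : P.1.LiesOver (pp p) := Ideal.LiesOver.trans P.1 q (pp p)
    have h1 := Ideal.ramificationIdx_tower (R := ℤ) q P.1
    rw [hp.ramificationIdx_eq_one P.1] at h1
    have h2 := Ideal.inertiaDeg_tower (R := ℤ) q P.1
    have h3 : q.inertiaDeg ℤ = 1 := by
      have h4 : (p : ℕ) ^ q.inertiaDeg ℤ = absNorm q := Ideal.pow_inertiaDeg p q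
      rw [hq] at h4
      exact Nat.pow_right_injective p.2.two_le (by simpa using h4)
    rw [Nat.eq_one_of_mul_eq_one_left h1.symm, one_mul, h2, h3, one_mul]
  · intro P
    rw [Finset.mem_filter, mem_T]
    constructor
    · rintro ⟨⟨h1, h2⟩, h3⟩
      exact ⟨h1, ⟨h3.symm⟩⟩
    · rintro ⟨h1, h2⟩
      haveI := h1
      haveI := h2
      exact ⟨⟨h1, Ideal.LiesOver.trans P q (pp p)⟩, h2.over.symm⟩

open scoped Classical in
/-- counting the primes `P | p` whose Frobenius lies in `H` -/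
theorem sum_inertiaDeg_eq {H : Subgroup Gal(K/ℚ)} {p : Nat.Primes} (hp : Unr K p) :
    ∑ P ∈ (T K p).filter (fun P => absNorm (P.under (𝓞 (FF K H))) = p), P.inertiaDeg ℤ =
      Nat.card H * idealCount (𝓞 (FF K H)) p := by
  have hfin : {I : Ideal (𝓞 (FF K H)) | absNorm I = p}.Finite :=
    Ideal.finite_setOfPred_absNorm_eq (p : ℕ)
  have h1 : idealCount (𝓞 (FF K H)) p = hfin.toFinset.card := by
    rw [idealCount]
    exact Nat.card_eq_card_finite_toFinset hfin
  rw [h1, mul_comm, ← smul_eq_mul, ← Finset.sum_const]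
  rw [← Finset.sum_fiberwise_of_maps_to (g := fun P => P.under (𝓞 (FF K H))) (t := hfin.toFinset)]
  · refine Finset.sum_congr rfl fun q hq => ?_
    rw [Set.Finite.mem_toFinset] at hq
    rw [← sum_inertiaDeg_over hp hq, Finset.filter_filter]
    refine Finset.sum_congr ?_ fun _ _ => rfl
    ext P
    simp only [Finset.mem_filter]
    constructor
    · rintro ⟨h1, h2, h3⟩
      exact ⟨h1, h3⟩
    · rintro ⟨h1, h3⟩
      refine ⟨h1, ?_, h3⟩
      rw [h3]
      exact hq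
  · intro P hP
    rw [Set.Finite.mem_toFinset]
    exact (Finset.mem_filter.mp hP).2

open scoped Classical in
/-- the weighted number of primes over `p` whose Frobenius generates `H` -/
noncomputable def EE (H : Subgroup Gal(K/ℚ)) (p : Nat.Primes) : ℕ :=
  ∑ P ∈ T K p, if ∃ σ : Gal(K/ℚ), IsArithFrobAt ℤ σ P ∧ Subgroup.zpowers σ = H then
    P.inertiaDeg ℤ else 0

noncomputable instance : Fintype (Subgroup Gal(K/ℚ)) := Fintype.ofFinite _

theorem exists_isArithFrobAt {p : Nat.Primes} (P : Ideal (𝓞 K)) [P.IsPrime]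
    [P.LiesOver (pp p)] : ∃ σ : Gal(K/ℚ), IsArithFrobAt ℤ σ P := by
  haveI : Finite (𝓞 K ⧸ P) := by
    rw [← Ideal.absNorm_ne_zero_iff, ← Ideal.pow_inertiaDeg p P]
    exact pow_ne_zero _ p.2.ne_zero
  exact IsArithFrobAt.exists_of_isInvariant ℤ Gal(K/ℚ) P

open scoped Classical in
theorem sum_EE {H : Subgroup Gal(K/ℚ)} {p : Nat.Primes} (hp : Unr K p) :
    ∑ H' ∈ Finset.univ.filter (fun H' : Subgroup Gal(K/ℚ) => H' ≤ H), EE H' p =
      Nat.card H * idealCount (𝓞 (FF K H)) p := by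
  rw [← sum_inertiaDeg_eq hp]
  have hfil : ∑ P ∈ (T K p).filter (fun P => absNorm (P.under (𝓞 (FF K H))) = (p : ℕ)),
      P.inertiaDeg ℤ = ∑ P ∈ T K p, if absNorm (P.under (𝓞 (FF K H))) = (p : ℕ) then
      P.inertiaDeg ℤ else 0 := Finset.sum_filter _ _
  rw [hfil]
  unfold EE
  rw [Finset.sum_comm]
  refine Finset.sum_congr rfl fun P hP => ?_
  obtain ⟨h1, h2⟩ := mem_T.mp hP
  obtain ⟨σ, hσ⟩ := exists_isArithFrobAt (p := p) P
  have h3 : ∀ H' : Subgroup Gal(K/ℚ), (∃ σ : Gal(K/ℚ), IsArithFrobAt ℤ σ P ∧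
      Subgroup.zpowers σ = H') ↔ Subgroup.zpowers σ = H' := fun H' =>
    ⟨fun ⟨τ, hτ, hτ'⟩ => by rw [hp.eq_of_isArithFrobAt P hσ hτ]; exact hτ', fun h => ⟨σ, hσ, h⟩⟩
  simp only [h3]
  rw [Finset.sum_ite_eq]
  have h4 : absNorm (P.under (𝓞 (FF K H))) = p ↔ σ ∈ H :=
    ⟨fun h => mem_of_absNorm_under_eq hσ (hp.inertia_eq_bot P) h,
      fun h => absNorm_under_eq_of_mem hσ h⟩
  simp only [Finset.mem_filter, Finset.mem_univ, true_and, h4, Subgroup.zpowers_le]

/-- the number of generators -/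
noncomputable def gen (H : Subgroup Gal(K/ℚ)) : ℕ :=
  Nat.card {g : Gal(K/ℚ) // Subgroup.zpowers g = H}

open scoped Classical in
theorem sum_gen (H : Subgroup Gal(K/ℚ)) :
    ∑ H' ∈ Finset.univ.filter (fun H' : Subgroup Gal(K/ℚ) => H' ≤ H), gen H' = Nat.card H := by
  letI : Fintype Gal(K/ℚ) := Fintype.ofFinite _
  have h1 : Nat.card H = (Finset.univ.filter (fun g : Gal(K/ℚ) => g ∈ H)).card := by
    rw [Nat.card_eq_fintype_card, Fintype.card_subtype]
  rw [h1, Finset.card_eq_sum_card_fiberwise (f := fun g => Subgroup.zpowers g)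
    (t := Finset.univ.filter (fun H' : Subgroup Gal(K/ℚ) => H' ≤ H))]
  · refine Finset.sum_congr rfl fun H' hH' => ?_
    rw [gen, Nat.card_eq_fintype_card, Fintype.card_subtype]
    congr 1
    ext g
    simp only [Finset.mem_filter, Finset.mem_univ, true_and] at hH' ⊢
    constructor
    · intro h
      exact ⟨hH' (h ▸ Subgroup.mem_zpowers g), h⟩
    · exact fun h => h.2
  · intro g hg
    simp only [Finset.coe_filter, Finset.mem_univ, true_and, Set.mem_ofPred_eq] at hg ⊢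
    rwa [Subgroup.zpowers_le]

theorem hasMean_EE (H : Subgroup Gal(K/ℚ)) : HasMean (fun p => (EE H p : ℝ)) (gen H) := by
  classical
  induction H using WellFoundedLT.induction with
  | ind H ih =>
    have h1 : HasMean (fun p => (Nat.card H : ℝ) * idealCount (𝓞 (FF K H)) p)
        ((Nat.card H : ℝ) * 1) := (hasMean_idealCount (FF K H)).const_mul _
    have h2 : HasMean (fun p => ∑ H' ∈ Finset.univ.filter (fun H' : Subgroup Gal(K/ℚ) => H' < H),
        (EE H' p : ℝ)) (∑ H' ∈ Finset.univ.filter (fun H' : Subgroup Gal(K/ℚ) => H' < H),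
        (gen H' : ℝ)) := HasMean.sum _ fun H' hH' => ih H' (by simpa using hH')
    have h3 := h1.sub h2
    have h4 : (Finset.univ.filter (fun H' : Subgroup Gal(K/ℚ) => H' ≤ H)) =
        insert H (Finset.univ.filter (fun H' : Subgroup Gal(K/ℚ) => H' < H)) := by
      ext H'
      simp [le_iff_eq_or_lt]
    have h5 : H ∉ (Finset.univ.filter (fun H' : Subgroup Gal(K/ℚ) => H' < H)) := by simp
    have h6 : (Nat.card H : ℝ) * 1 - ∑ H' ∈ Finset.univ.filter
        (fun H' : Subgroup Gal(K/ℚ) => H' < H), (gen H' : ℝ) = gen H := by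
      have h7 := sum_gen H
      rw [h4, Finset.sum_insert h5] at h7
      rw [← h7]
      push_cast
      ring
    rw [h6] at h3
    refine h3.congr ((finite_not_unr K).subset fun p hp => ?_)
    intro hunr
    apply hp
    have h7 := sum_EE (H := H) hunr
    rw [h4, Finset.sum_insert h5] at h7
    have h8 : ((Nat.card H : ℕ) : ℝ) * (idealCount (𝓞 (FF K H)) p : ℕ) =
      ((Nat.card H * idealCount (𝓞 (FF K H)) p : ℕ) : ℝ) := by push_cast; ring
    rw [h8, ← h7]
    push_cast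
    ring

/-- **Frobenius density theorem** (existence form): for `g ∈ Gal(K/ℚ)` there are infinitely many
primes `p` having a prime `P` above with a Frobenius element generating the same subgroup
as `g`. -/
theorem infinite_setOf_exists_isArithFrobAt (g : Gal(K/ℚ)) :
    {p : Nat.Primes | Unr K p ∧ ∃ P : Ideal (𝓞 K), P.IsPrime ∧ P.LiesOver (pp p) ∧
      ∃ σ : Gal(K/ℚ), IsArithFrobAt ℤ σ P ∧ Subgroup.zpowers σ = Subgroup.zpowers g}.Infinite := by
  have h1 : gen (Subgroup.zpowers g) ≠ 0 := by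
    haveI : Nonempty {h : Gal(K/ℚ) // Subgroup.zpowers h = Subgroup.zpowers g} := ⟨⟨g, rfl⟩⟩
    exact Nat.card_pos.ne'
  have h2 := (hasMean_EE (Subgroup.zpowers g)).infinite (by exact_mod_cast h1)
  refine (h2.sdiff (finite_not_unr K)).mono ?_
  rintro p ⟨hp, hp'⟩
  simp only [Set.mem_ofPred_eq, not_not] at hp'
  refine ⟨hp', ?_⟩
  rw [Function.mem_support, Nat.cast_ne_zero, EE] at hp
  obtain ⟨P, hP, hP'⟩ := Finset.exists_ne_zero_of_sum_ne_zero hp
  have h3 : ∃ σ : Gal(K/ℚ), IsArithFrobAt ℤ σ P ∧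
      Subgroup.zpowers σ = Subgroup.zpowers g := by
    by_contra h
    exact hP' (if_neg h)
  exact ⟨P, (mem_T.mp hP).1, (mem_T.mp hP).2, h3⟩

end Fermat.Agent.Cheb
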