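import Mathlib

set_option autoImplicit false

/-!
# Counting ideals of given norm: multiplicativity and prime power bounds
-/

namespace Fermat.Agent.Cheb

open Ideal NumberField

section general

/-- The number of ideals of norm `n`. -/
noncomputable def idealCount (S : Type*) [CommRing S] [IsDedekindDomain S] [Module.Free ℤ S]
    (n : ℕ) : ℕ :=
  Nat.card {I : Ideal S // absNorm I = n}

theorem span_natCast_sup_span_natCast {S : Type*} [CommRing S] {m n : ℕ} (h : Nat.Coprime m n) :
    (span {(m : S)} ⊔ span {(n : S)} : Ideal S) = ⊤ := by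
  rw [← Ideal.isCoprime_iff_sup_eq, Ideal.isCoprime_span_singleton_iff]
  have := (Nat.isCoprime_iff_coprime.mpr h).map (Int.castRingHom S)
  simpa using this

variable {S : Type*} [CommRing S] [IsDedekindDomain S] [Module.Free ℤ S]

theorem mul_sup_span {I J : Ideal S} {m : ℕ} (hI : absNorm I = m)
    (h : Nat.Coprime m (absNorm J)) : I * J ⊔ span {(m : S)} = I := by
  have hm : span {(m : S)} ≤ I := by
    rw [span_singleton_le_iff_mem, ← hI]; exact absNorm_mem I
  obtain ⟨I'', hI''⟩ := Ideal.dvd_iff_le.mpr hm
  rw [hI'', ← Ideal.mul_sup]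
  suffices h' : J ⊔ I'' = ⊤ by rw [h', Ideal.mul_top]
  rw [eq_top_iff, ← span_natCast_sup_span_natCast (S := S) h]
  refine sup_le ?_ ?_
  · refine le_trans ?_ le_sup_right
    rw [hI'']
    exact Ideal.mul_le_right
  · refine le_trans ?_ le_sup_left
    rw [span_singleton_le_iff_mem]
    exact absNorm_mem J

theorem sup_span_mul_sup_span {L : Ideal S} {m n : ℕ} (hL : absNorm L = m * n)
    (h : Nat.Coprime m n) :
    (L ⊔ span {(m : S)}) * (L ⊔ span {(n : S)}) = L := by
  apply le_antisymm
  · rw [Ideal.sup_mul, Ideal.mul_sup, Ideal.mul_sup, Ideal.span_singleton_mul_span_singleton]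
    refine sup_le (sup_le Ideal.mul_le_left Ideal.mul_le_left) (sup_le Ideal.mul_le_right ?_)
    rw [span_singleton_le_iff_mem]
    have := absNorm_mem L
    rw [hL] at this
    exact_mod_cast this
  · have h1 : L = L * (span {(m : S)} ⊔ span {(n : S)}) := by
      rw [span_natCast_sup_span_natCast h, Ideal.mul_top]
    conv_lhs => rw [h1]
    rw [Ideal.mul_sup]
    refine sup_le ?_ ?_
    · rw [mul_comm]
      exact Ideal.mul_mono le_sup_right le_sup_left
    · exact Ideal.mul_mono le_sup_left le_sup_right

theorem absNorm_sup_span [Module.Finite ℤ S] {L : Ideal S} {m n : ℕ} (hL : absNorm L = m * n)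
    (h : Nat.Coprime m n) (hm : m ≠ 0) (hn : n ≠ 0) :
    absNorm (L ⊔ span {(m : S)}) = m ∧ absNorm (L ⊔ span {(n : S)}) = n := by
  have h1 := congrArg absNorm (sup_span_mul_sup_span hL h)
  rw [map_mul, hL] at h1
  have h2 : absNorm (L ⊔ span {(m : S)}) ∣ m ^ Module.finrank ℤ S := by
    rw [← absNorm_span_natCast (S := S) m]
    exact absNorm_dvd_absNorm_of_le le_sup_right
  have h3 : absNorm (L ⊔ span {(n : S)}) ∣ n ^ Module.finrank ℤ S := by
    rw [← absNorm_span_natCast (S := S) n]
    exact absNorm_dvd_absNorm_of_le le_sup_right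
  have h4 : absNorm (L ⊔ span {(m : S)}) ∣ m := by
    have h5 : Nat.Coprime (absNorm (L ⊔ span {(m : S)})) n :=
      Nat.Coprime.coprime_dvd_left h2 (Nat.Coprime.pow_left _ h)
    exact h5.dvd_of_dvd_mul_right ⟨_, h1.symm⟩
  have h4' : absNorm (L ⊔ span {(n : S)}) ∣ n := by
    have h5 : Nat.Coprime (absNorm (L ⊔ span {(n : S)})) m :=
      Nat.Coprime.coprime_dvd_left h3 (Nat.Coprime.pow_left _ h.symm)
    refine h5.dvd_of_dvd_mul_left ⟨absNorm (L ⊔ span {(m : S)}), ?_⟩
    rw [← h1, mul_comm]
  have h5 := Nat.le_of_dvd (Nat.pos_of_ne_zero hm) h4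
  have h6 := Nat.le_of_dvd (Nat.pos_of_ne_zero hn) h4'
  constructor
  · refine le_antisymm h5 ?_
    by_contra! h7
    have : absNorm (L ⊔ span {(m : S)}) * absNorm (L ⊔ span {(n : S)}) < m * n :=
      lt_of_le_of_lt (Nat.mul_le_mul_left _ h6)
        (Nat.mul_lt_mul_of_pos_right h7 (Nat.pos_of_ne_zero hn))
    omega
  · refine le_antisymm h6 ?_
    by_contra! h7
    have : absNorm (L ⊔ span {(m : S)}) * absNorm (L ⊔ span {(n : S)}) < m * n :=
      lt_of_le_of_lt (Nat.mul_le_mul_right _ h5)
        (Nat.mul_lt_mul_of_pos_left h7 (Nat.pos_of_ne_zero hm))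
    omega

theorem idealCount_one : idealCount S 1 = 1 := by
  unfold idealCount
  have : Unique {I : Ideal S // absNorm I = 1} :=
    { default := ⟨⊤, absNorm_top⟩
      uniq := fun I => Subtype.ext (absNorm_eq_one_iff.mp I.2) }
  exact Nat.card_unique

theorem idealCount_mul [Module.Finite ℤ S] {m n : ℕ} (h : Nat.Coprime m n) (hm : m ≠ 0)
    (hn : n ≠ 0) :
    idealCount S (m * n) = idealCount S m * idealCount S n := by
  unfold idealCount
  rw [← Nat.card_prod]
  refine (Nat.card_congr (Equiv.ofBijective
    (fun P : {I : Ideal S // absNorm I = m} × {I : Ideal S // absNorm I = n} =>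
      (⟨P.1.1 * P.2.1, by rw [map_mul, P.1.2, P.2.2]⟩ : {I : Ideal S // absNorm I = m * n}))
    ⟨?_, ?_⟩)).symm
  · rintro ⟨⟨I, hI⟩, ⟨J, hJ⟩⟩ ⟨⟨I', hI'⟩, ⟨J', hJ'⟩⟩ hIJ
    simp only [Subtype.mk.injEq] at hIJ
    have h1 := mul_sup_span hI (J := J) (by rw [hJ]; exact h)
    have h2 := mul_sup_span hI' (J := J') (by rw [hJ']; exact h)
    have h3 := mul_sup_span hJ (J := I) (by rw [hI]; exact h.symm)
    have h4 := mul_sup_span hJ' (J := I') (by rw [hI']; exact h.symm)
    have h5 : I = I' := by rw [← h1, hIJ, h2]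
    have h6 : J = J' := by rw [← h3, mul_comm, hIJ, mul_comm, h4]
    subst h5 h6
    rfl
  · rintro ⟨L, hL⟩
    obtain ⟨h1, h2⟩ := absNorm_sup_span hL h hm hn
    exact ⟨⟨⟨_, h1⟩, ⟨_, h2⟩⟩, Subtype.ext (sup_span_mul_sup_span hL h)⟩

/-- ideals of prime power norm `p ^ k` are determined by their exponents -/
theorem idealCount_prime_pow_le [Module.Finite ℤ S] [CharZero S] {p : ℕ} (hp : p.Prime) (k : ℕ) :
    idealCount S (p ^ k) ≤ (k + 1) ^ Module.finrank ℤ S := by
  classical
  have hp0 : (span {(p : S)} : Ideal S) ≠ ⊥ := by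
    rw [Ne, Ideal.span_singleton_eq_bot]
    exact_mod_cast hp.ne_zero
  let T : Finset (Ideal S) := (UniqueFactorizationMonoid.normalizedFactors
    (span {(p : S)} : Ideal S)).toFinset
  -- number of primes above `p`
  have hT : T.card ≤ Module.finrank ℤ S := by
    have h1 : T.card ≤ Multiset.card (UniqueFactorizationMonoid.normalizedFactors
      (span {(p : S)} : Ideal S)) := Multiset.toFinset_card_le _
    refine h1.trans ?_
    have h2 : p ^ Module.finrank ℤ S = ((UniqueFactorizationMonoid.normalizedFactors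
      (span {(p : S)} : Ideal S)).map absNorm).prod := by
      rw [← map_multiset_prod, ← absNorm_span_natCast (S := S) p]
      congr 1
      exact (associated_iff_eq.mp (UniqueFactorizationMonoid.prod_normalizedFactors hp0)).symm
    have h3 : p ^ Multiset.card (UniqueFactorizationMonoid.normalizedFactors
      (span {(p : S)} : Ideal S)) ≤ ((UniqueFactorizationMonoid.normalizedFactors
      (span {(p : S)} : Ideal S)).map absNorm).prod := by
      have h4 : ((UniqueFactorizationMonoid.normalizedFactors
        (span {(p : S)} : Ideal S)).map (fun _ => p)).prod = p ^ Multiset.card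
          (UniqueFactorizationMonoid.normalizedFactors (span {(p : S)} : Ideal S)) := by
        rw [Multiset.map_const', Multiset.prod_replicate]
      rw [← h4]
      refine Multiset.prod_map_le_prod_map₀ _ _ (fun _ _ => Nat.zero_le _) (fun P hP => ?_)
      have hPp := UniqueFactorizationMonoid.prime_of_normalized_factor P hP
      have hPd := UniqueFactorizationMonoid.dvd_of_mem_normalizedFactors hP
      have h5 : absNorm P ∣ p ^ Module.finrank ℤ S := by
        rw [← absNorm_span_natCast (S := S) p]
        exact map_dvd _ hPd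
      have h6 : absNorm P ≠ 1 := fun h => by
        rw [absNorm_eq_one_iff] at h
        exact hPp.not_isUnit (by rw [h, ← Ideal.one_eq_top]; exact isUnit_one)
      have h7 : p ∣ absNorm P := by
        obtain ⟨j, -, hj⟩ := (Nat.dvd_prime_pow hp).mp h5
        rcases Nat.eq_zero_or_pos j with hj0 | hj0
        · rw [hj, hj0, pow_zero] at h6; exact absurd rfl h6
        · rw [hj]; exact dvd_pow_self p hj0.ne'
      refine Nat.le_of_dvd (Nat.pos_of_ne_zero fun h => ?_) h7
      exact hPp.ne_zero (by rw [absNorm_eq_zero_iff] at h; exact h)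
    rw [← h2] at h3
    exact (Nat.pow_le_pow_iff_right hp.one_lt).mp h3
  -- the injection
  let f : {I : Ideal S // absNorm I = p ^ k} → (T → Fin (k + 1)) := fun I P =>
    ⟨min ((UniqueFactorizationMonoid.normalizedFactors I.1).count P.1) k, by omega⟩
  have key : ∀ I : {I : Ideal S // absNorm I = p ^ k}, ∀ P ∈
      UniqueFactorizationMonoid.normalizedFactors I.1, P ∈ T ∧
        (UniqueFactorizationMonoid.normalizedFactors I.1).count P ≤ k := by
    rintro ⟨I, hI⟩ P hP
    have hI0 : I ≠ ⊥ := fun h => by
      rw [h, absNorm_bot] at hI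
      exact (pow_pos hp.pos k).ne hI
    have hPp := UniqueFactorizationMonoid.prime_of_normalized_factor P hP
    have hPd := UniqueFactorizationMonoid.dvd_of_mem_normalizedFactors hP
    have h1 : I ∣ span {(p : S)} ^ k := by
      rw [Ideal.dvd_iff_le, Ideal.span_singleton_pow, span_singleton_le_iff_mem]
      have := absNorm_mem I
      rw [hI] at this
      exact_mod_cast this
    have h2 : P ∣ span {(p : S)} := hPp.dvd_of_dvd_pow (hPd.trans h1)
    refine ⟨?_, ?_⟩
    · rw [Multiset.mem_toFinset, UniqueFactorizationMonoid.mem_normalizedFactors_iff' hp0]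
      exact ⟨hPp.irreducible, normalize_eq _, h2⟩
    · have h3 : P ^ (UniqueFactorizationMonoid.normalizedFactors I).count P ∣ I := by
        have h4 := Multiset.le_count_iff_replicate_le.mp
          (le_refl ((UniqueFactorizationMonoid.normalizedFactors I).count P))
        have h5 := Multiset.prod_dvd_prod_of_le h4
        rw [Multiset.prod_replicate] at h5
        exact h5.trans (UniqueFactorizationMonoid.prod_normalizedFactors hI0).dvd
      have h4 := map_dvd absNorm h3
      rw [map_pow, hI] at h4
      have h6 : absNorm P ≠ 1 := fun h => by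
        rw [absNorm_eq_one_iff] at h
        exact hPp.not_isUnit (by rw [h, ← Ideal.one_eq_top]; exact isUnit_one)
      have h5 : absNorm P ∣ p ^ Module.finrank ℤ S := by
        rw [← absNorm_span_natCast (S := S) p]
        exact map_dvd _ h2
      have h7 : p ∣ absNorm P := by
        obtain ⟨j, -, hj⟩ := (Nat.dvd_prime_pow hp).mp h5
        rcases Nat.eq_zero_or_pos j with hj0 | hj0
        · rw [hj, hj0, pow_zero] at h6; exact absurd rfl h6
        · rw [hj]; exact dvd_pow_self p hj0.ne'
      exact (Nat.pow_dvd_pow_iff_le_right hp.one_lt).mp ((pow_dvd_pow_of_dvd h7 _).trans h4)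
  have hf : Function.Injective f := by
    rintro ⟨I, hI⟩ ⟨J, hJ⟩ hIJ
    have hI0 : I ≠ ⊥ := fun h => by
      rw [h, absNorm_bot] at hI
      exact (pow_pos hp.pos k).ne hI
    have hJ0 : J ≠ ⊥ := fun h => by
      rw [h, absNorm_bot] at hJ
      exact (pow_pos hp.pos k).ne hJ
    apply Subtype.ext
    change I = J
    have h1 : UniqueFactorizationMonoid.normalizedFactors I =
        UniqueFactorizationMonoid.normalizedFactors J := by
      ext P
      by_cases hPT : P ∈ T
      · have h2 := congrArg Fin.val (congrFun hIJ ⟨P, hPT⟩)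
        simp only [f] at h2
        have h3 : (UniqueFactorizationMonoid.normalizedFactors I).count P ≤ k := by
          by_cases hP : P ∈ UniqueFactorizationMonoid.normalizedFactors I
          · exact (key ⟨I, hI⟩ P hP).2
          · rw [Multiset.count_eq_zero_of_notMem hP]; exact Nat.zero_le _
        have h4 : (UniqueFactorizationMonoid.normalizedFactors J).count P ≤ k := by
          by_cases hP : P ∈ UniqueFactorizationMonoid.normalizedFactors J
          · exact (key ⟨J, hJ⟩ P hP).2
          · rw [Multiset.count_eq_zero_of_notMem hP]; exact Nat.zero_le _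
        omega
      · rw [Multiset.count_eq_zero_of_notMem (fun hP => hPT (key ⟨I, hI⟩ P hP).1),
          Multiset.count_eq_zero_of_notMem (fun hP => hPT (key ⟨J, hJ⟩ P hP).1)]
    exact associated_iff_eq.mp
      ((UniqueFactorizationMonoid.associated_iff_normalizedFactors_eq_normalizedFactors
        hI0 hJ0).mpr h1)
  calc idealCount S (p ^ k) ≤ Nat.card (T → Fin (k + 1)) :=
        Nat.card_le_card_of_injective f hf
    _ = (k + 1) ^ T.card := by simp
    _ ≤ (k + 1) ^ Module.finrank ℤ S := Nat.pow_le_pow_right (by omega) hT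

end general

end Fermat.Agent.Cheb
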